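import Fermat.Agent.ErdosKac.Mertens
import Fermat.Agent.ErdosKac.Model
import Mathlib.Analysis.SpecialFunctions.Log.Basic

/-!
# Sums of powers of logarithms over primes

`Approx f n c` says `f t = (c + o (1)) (log t) ^ n + O (1)`. From Mertens' first theorem
`∑_{p ≤ t} (log p / p) (log p) ^ j (log (t / p)) ^ i` is so approximated with
`c = i! j! / (i + j + 1)!`.
-/

set_option autoImplicit false

noncomputable section

namespace FA.DivisorArcsine

open Finset
open FA.ErdosKac (primesUpTo mem_primesUpTo)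

/-- `f t` is `(c + o (1)) (log t) ^ n + O (1)` for `t ≥ 1`. -/
def Approx (f : ℝ → ℝ) (n : ℕ) (c : ℝ) : Prop :=
  ∀ ε : ℝ, 0 < ε → ∃ C : ℝ, 0 ≤ C ∧ ∀ t : ℝ, 1 ≤ t →
    |f t - c * Real.log t ^ n| ≤ ε * Real.log t ^ n + C

/-- A lower power is absorbed. -/
theorem exists_absorb {a b : ℕ} (hab : a < b) (K : ℝ) {ε : ℝ} (hε : 0 < ε) :
    ∃ C : ℝ, 0 ≤ C ∧ ∀ L : ℝ, 0 ≤ L → K * L ^ a ≤ ε * L ^ b + C := by
  obtain ⟨R, hR⟩ : ∃ R : ℝ, R = max 1 (|K| / ε) := ⟨_, rfl⟩
  have hR1 : 1 ≤ R := hR ▸ le_max_left _ _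
  have hR2 : |K| ≤ ε * R := by
    rw [← div_le_iff₀' hε, hR]
    exact le_max_right _ _
  refine ⟨|K| * R ^ a, by positivity, fun L hL => ?_⟩
  have h0 : 0 ≤ ε * L ^ b := by positivity
  have hK : K * L ^ a ≤ |K| * L ^ a :=
    mul_le_mul_of_nonneg_right (le_abs_self K) (by positivity)
  rcases le_or_gt L R with h | h
  · have := mul_le_mul_of_nonneg_left (pow_le_pow_left₀ hL h a) (abs_nonneg K)
    linarith
  · have h1 := mul_le_mul_of_nonneg_right (hR2.trans (mul_le_mul_of_nonneg_left h.le hε.le))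
      (pow_nonneg hL a)
    have h2 : ε * L * L ^ a ≤ ε * L ^ b := by
      rw [mul_assoc, ← pow_succ']
      exact mul_le_mul_of_nonneg_left (pow_le_pow_right₀ (hR1.trans h.le) hab) hε.le
    have h3 : 0 ≤ |K| * R ^ a := by positivity
    linarith

theorem Approx.add {f g : ℝ → ℝ} {n : ℕ} {a b : ℝ} (hf : Approx f n a) (hg : Approx g n b) :
    Approx (fun t => f t + g t) n (a + b) := fun ε hε => by
  obtain ⟨C, hC, h⟩ := hf (ε / 2) (half_pos hε)
  obtain ⟨C', hC', h'⟩ := hg (ε / 2) (half_pos hε)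
  refine ⟨C + C', add_nonneg hC hC', fun t ht => ?_⟩
  have e : f t + g t - (a + b) * Real.log t ^ n =
      (f t - a * Real.log t ^ n) + (g t - b * Real.log t ^ n) := by ring
  rw [e]
  exact (abs_add_le _ _).trans (by linarith [h t ht, h' t ht])

theorem Approx.const_mul {f : ℝ → ℝ} {n : ℕ} {a : ℝ} (r : ℝ) (hf : Approx f n a) :
    Approx (fun t => r * f t) n (r * a) := fun ε hε => by
  obtain ⟨C, hC, h⟩ := hf (ε / (|r| + 1)) (by positivity)
  refine ⟨|r| * C, by positivity, fun t ht => ?_⟩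
  have hl : 0 ≤ Real.log t ^ n := pow_nonneg (Real.log_nonneg ht) n
  have e : r * f t - r * a * Real.log t ^ n = r * (f t - a * Real.log t ^ n) := by ring
  rw [e, abs_mul]
  refine (mul_le_mul_of_nonneg_left (h t ht) (abs_nonneg r)).trans ?_
  have h1 : |r| * (ε / (|r| + 1)) ≤ ε := by
    rw [mul_div, div_le_iff₀ (by positivity)]
    linarith
  have := mul_le_mul_of_nonneg_right h1 hl
  linarith

theorem Approx.sum {ι : Type*} (s : Finset ι) {f : ι → ℝ → ℝ} {c : ι → ℝ} {n : ℕ}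
    (h : ∀ i ∈ s, Approx (f i) n (c i)) :
    Approx (fun t => ∑ i ∈ s, f i t) n (∑ i ∈ s, c i) := by
  classical
  induction s using Finset.induction_on with
  | empty =>
    refine fun ε hε => ⟨0, le_rfl, fun t ht => ?_⟩
    simp only [sum_empty, zero_mul, sub_zero, abs_zero, add_zero]
    exact mul_nonneg hε.le (pow_nonneg (Real.log_nonneg ht) n)
  | insert a s ha ih =>
    simp only [sum_insert ha]
    exact (h a (mem_insert_self a s)).add (ih fun i hi => h i (mem_insert_of_mem hi))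

theorem Approx.congr {f g : ℝ → ℝ} {n : ℕ} {a : ℝ} (hf : Approx f n a)
    (h : ∀ t, 1 ≤ t → g t = f t) : Approx g n a := fun ε hε => by
  obtain ⟨C, hC, h'⟩ := hf ε hε
  exact ⟨C, hC, fun t ht => h t ht ▸ h' t ht⟩

/-- Terms of lower order. -/
theorem approx_zero_of_abs_le {f : ℝ → ℝ} {a n : ℕ} (han : a < n) {K C₀ : ℝ} (hC₀ : 0 ≤ C₀)
    (h : ∀ t : ℝ, 1 ≤ t → |f t| ≤ K * Real.log t ^ a + C₀) : Approx f n 0 := fun ε hε => by
  obtain ⟨C, hC, hab⟩ := exists_absorb han K hε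
  refine ⟨C + C₀, add_nonneg hC hC₀, fun t ht => ?_⟩
  rw [zero_mul, sub_zero]
  linarith [h t ht, hab _ (Real.log_nonneg ht)]

theorem Approx.log_mul {f : ℝ → ℝ} {n : ℕ} {a : ℝ} (hn : 1 ≤ n) (hf : Approx f n a) :
    Approx (fun t => Real.log t * f t) (n + 1) a := fun ε hε => by
  obtain ⟨C, hC, h⟩ := hf (ε / 2) (half_pos hε)
  obtain ⟨C', hC', hab⟩ := exists_absorb (show 1 < n + 1 by omega) C (half_pos hε)
  refine ⟨C', hC', fun t ht => ?_⟩
  have hl := Real.log_nonneg ht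
  have e : Real.log t * f t - a * Real.log t ^ (n + 1) =
      Real.log t * (f t - a * Real.log t ^ n) := by ring
  rw [e, abs_mul, abs_of_nonneg hl]
  refine (mul_le_mul_of_nonneg_left (h t ht) hl).trans ?_
  have := hab _ hl
  rw [pow_one] at this
  have e2 : Real.log t * (ε / 2 * Real.log t ^ n) = ε / 2 * Real.log t ^ (n + 1) := by ring
  linarith

/-- `∑_{p ≤ n} log p / p`. -/
def primeLogSum (n : ℕ) : ℝ := ∑ p ∈ primesUpTo n, Real.log p / p

theorem exists_abs_primeLogSum_sub_le :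
    ∃ C : ℝ, ∀ t : ℝ, 1 ≤ t → |primeLogSum ⌊t⌋₊ - Real.log t| ≤ C := by
  obtain ⟨C, hC⟩ := ErdosKac.exists_abs_sum_log_div_sub_le
  refine ⟨C + 1, fun t ht => ?_⟩
  have hn : 1 ≤ ⌊t⌋₊ := Nat.one_le_floor_iff t |>.2 ht
  have hn0 : (1 : ℝ) ≤ (⌊t⌋₊ : ℝ) := Nat.one_le_cast.2 hn
  have h1 := Real.log_le_log (by linarith) (Nat.floor_le (show 0 ≤ t by linarith))
  have h2 : Real.log t ≤ Real.log (2 * (⌊t⌋₊ : ℝ)) :=
    Real.log_le_log (by linarith) (by linarith [Nat.lt_floor_add_one t])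
  rw [Real.log_mul two_ne_zero (by linarith)] at h2
  obtain ⟨h3, h4⟩ := abs_le.1 (hC ⌊t⌋₊ hn)
  rw [primeLogSum, abs_le]
  constructor <;> linarith [Real.log_two_lt_d9]

theorem sum_pow_le (j K : ℕ) :
    ∑ a ∈ range K, ((a : ℝ) + 1) ^ j ≤ ((K : ℝ) + 1) ^ (j + 1) / (j + 1) := by
  induction K with
  | zero => simp; positivity
  | succ K ih =>
    rw [sum_range_succ]
    push_cast
    have hb := ErdosKac.add_pow_ge (show (0 : ℝ) ≤ (K : ℝ) + 1 by positivity) zero_le_one j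
    rw [le_div_iff₀ (by positivity)] at ih ⊢
    linarith

theorem succ_pow_sub_le (j n : ℕ) :
    ((n : ℝ) + 1) ^ (j + 1) - (n : ℝ) ^ (j + 1) ≤ ((j : ℝ) + 1) * ((n : ℝ) + 1) ^ j := by
  rw [← geom_sum₂_mul ((n : ℝ) + 1) n (j + 1), add_sub_cancel_left, mul_one]
  refine (sum_le_card_nsmul _ _ (((n : ℝ) + 1) ^ j) fun i hi => ?_).trans_eq ?_
  · have hi' := mem_range.1 hi
    obtain ⟨l, rfl⟩ := Nat.exists_eq_add_of_le (Nat.lt_succ_iff.1 hi')
    rw [show i + l + 1 - 1 - i = l by omega, pow_add]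
    exact mul_le_mul_of_nonneg_left (pow_le_pow_left₀ (by positivity) (by linarith) l)
      (by positivity)
  · rw [card_range, nsmul_eq_mul]
    push_cast
    ring

theorem pow_div_le_sum_pow (j K : ℕ) :
    (K : ℝ) ^ (j + 1) / (j + 1) - (K : ℝ) ^ j ≤ ∑ a ∈ range K, (a : ℝ) ^ j := by
  have key : (K : ℝ) ^ (j + 1) / (j + 1) ≤ ∑ a ∈ range K, ((a : ℝ) + 1) ^ j := by
    induction K with
    | zero => simp
    | succ n ih =>
      rw [sum_range_succ]
      push_cast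
      rw [div_le_iff₀ (by positivity)] at ih ⊢
      linarith [succ_pow_sub_le j n]
  have h := sum_range_succ' (fun a : ℕ => (a : ℝ) ^ j) K
  rw [sum_range_succ] at h
  push_cast at h
  linarith [pow_nonneg (le_refl (0 : ℝ)) j]

/-- `∑_{p ≤ t} (log p / p) (log p) ^ j (log (t / p)) ^ i`. -/
def primeMoment (j i : ℕ) (t : ℝ) : ℝ :=
  ∑ p ∈ primesUpTo ⌊t⌋₊, Real.log p / p * Real.log p ^ j * (Real.log t - Real.log p) ^ i

theorem log_le_of_mem {t : ℝ} (ht : 1 ≤ t) {p : ℕ} (hp : p ∈ primesUpTo ⌊t⌋₊) :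
    0 ≤ Real.log p ∧ Real.log p ≤ Real.log t := by
  obtain ⟨hp, hpt⟩ := mem_primesUpTo.1 hp
  exact ⟨Real.log_natCast_nonneg p, Real.log_le_log (Nat.cast_pos.2 hp.pos)
    ((Nat.cast_le.2 hpt).trans (Nat.floor_le (by linarith)))⟩

/-- **The sums of powers of `log p`**, from Mertens' theorem over `K` ranges. -/
theorem approx_primeMoment_zero (j : ℕ) :
    Approx (primeMoment j 0) (j + 1) ((j : ℝ) + 1)⁻¹ := by
  intro ε hε
  obtain ⟨C, hC⟩ := exists_abs_primeLogSum_sub_le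
  have hC0 : 0 ≤ C := (abs_nonneg _).trans (hC 1 le_rfl)
  obtain ⟨K, hK1, hKε⟩ : ∃ K : ℕ, 1 ≤ K ∧ (3 : ℝ) ^ (j + 1) / K ≤ ε / 2 := by
    refine ⟨⌈(3 : ℝ) ^ (j + 1) / (ε / 2)⌉₊ + 1, by omega, ?_⟩
    rw [div_le_comm₀ (by positivity) (half_pos hε)]
    exact (Nat.le_ceil _).trans (Nat.cast_le.2 (Nat.le_succ _))
  have hK0 : (0 : ℝ) < K := Nat.cast_pos.2 hK1
  obtain ⟨C', hC', hab⟩ := exists_absorb (show j < j + 1 by omega) (2 * C * K) (half_pos hε)
  refine ⟨C', hC', fun t ht => ?_⟩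
  obtain ⟨L, hLdef⟩ : ∃ L, L = Real.log t := ⟨_, rfl⟩
  rw [← hLdef]
  have hL : 0 ≤ L := hLdef ▸ Real.log_nonneg ht
  have hlog : ∀ p ∈ primesUpTo ⌊t⌋₊, 0 ≤ Real.log p / p * Real.log p ^ j := fun p _ =>
    mul_nonneg (div_nonneg (Real.log_natCast_nonneg p) (Nat.cast_nonneg p))
      (pow_nonneg (Real.log_natCast_nonneg p) j)
  -- the cumulative sums at `exp (a L / K)`
  obtain ⟨G, hG⟩ : ∃ G : ℕ → ℝ, G = fun a : ℕ => primeLogSum ⌊Real.exp (a * L / K)⌋₊ :=
    ⟨_, rfl⟩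
  have hGb : ∀ a : ℕ, |G a - a * L / K| ≤ C := fun a => by
    have h := hC _ (Real.one_le_exp (show 0 ≤ (a : ℝ) * L / K by positivity))
    rwa [Real.log_exp, ← show G a = primeLogSum ⌊Real.exp (a * L / K)⌋₊ by rw [hG]] at h
  obtain ⟨P, hP⟩ : ∃ P : ℕ → Finset ℕ,
      P = fun a : ℕ => primesUpTo ⌊Real.exp (a * L / K)⌋₊ := ⟨_, rfl⟩
  have hPmono : ∀ a, P a ⊆ P (a + 1) := fun a p hp => by
    rw [hP] at hp ⊢
    rw [mem_primesUpTo] at hp ⊢
    refine ⟨hp.1, hp.2.trans (Nat.floor_le_floor (Real.exp_le_exp.2 ?_))⟩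
    push_cast
    gcongr
    linarith
  have hP0 : P 0 = ∅ := by
    rw [hP]
    simp [ErdosKac.primesUpTo, filter_singleton, Nat.not_prime_one]
  have hPK : P K = primesUpTo ⌊t⌋₊ := by
    rw [hP]
    simp only
    rw [mul_div_cancel_left₀ _ hK0.ne', hLdef, Real.exp_log (by linarith)]
  have htel : ∀ n (φ : ℕ → ℝ), ∑ p ∈ P n, φ p = ∑ a ∈ range n, ∑ p ∈ P (a + 1) \ P a, φ p := by
    intro n φ
    induction n with
    | zero => simp [hP0]
    | succ n ih => rw [sum_range_succ, ← ih, ← sum_sdiff (hPmono n), add_comm]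
  have hw : ∀ a, ∑ p ∈ P (a + 1) \ P a, Real.log p / p = G (a + 1) - G a := fun a => by
    rw [eq_sub_iff_add_eq, hG]
    simp only [primeLogSum]
    rw [show primesUpTo ⌊Real.exp ((a + 1 : ℕ) * L / K)⌋₊ = P (a + 1) by rw [hP],
      show primesUpTo ⌊Real.exp (a * L / K)⌋₊ = P a by rw [hP], sum_sdiff (hPmono a)]
  have hstep : ∀ a : ℕ,
      ((a : ℝ) * L / K) ^ j * (L / K - 2 * C) ≤
        ∑ p ∈ P (a + 1) \ P a, Real.log p / p * Real.log p ^ j ∧
      ∑ p ∈ P (a + 1) \ P a, Real.log p / p * Real.log p ^ j ≤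
        (((a : ℝ) + 1) * L / K) ^ j * (L / K + 2 * C) := fun a => by
    obtain ⟨a1, a2⟩ := abs_le.1 (hGb a)
    obtain ⟨a3, a4⟩ := abs_le.1 (hGb (a + 1))
    push_cast at a3 a4
    have e : ((a : ℝ) + 1) * L / K = (a : ℝ) * L / K + L / K := by ring
    rw [e] at a3 a4
    have hbnd : ∀ p ∈ P (a + 1) \ P a, (a : ℝ) * L / K ≤ Real.log p ∧
        Real.log p ≤ ((a : ℝ) + 1) * L / K := fun p hp => by
      rw [mem_sdiff, hP, mem_primesUpTo, mem_primesUpTo, not_and] at hp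
      obtain ⟨⟨hpp, hle⟩, hgt⟩ := hp
      have hp0 : (0 : ℝ) < p := Nat.cast_pos.2 hpp.pos
      constructor
      · rw [Real.le_log_iff_exp_le hp0]
        exact ((Nat.floor_lt (Real.exp_nonneg _)).1 (not_le.1 (hgt hpp))).le
      · rw [Real.log_le_iff_le_exp hp0]
        have := (Nat.cast_le.2 hle).trans (Nat.floor_le (Real.exp_nonneg _))
        push_cast at this
        exact this
    constructor
    · refine (mul_le_mul_of_nonneg_left (show L / K - 2 * C ≤ G (a + 1) - G a by linarith)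
        (by positivity)).trans ?_
      rw [← hw, mul_sum]
      refine sum_le_sum fun p hp => ?_
      rw [mul_comm]
      exact mul_le_mul_of_nonneg_left (pow_le_pow_left₀ (by positivity) (hbnd p hp).1 j)
        (div_nonneg (Real.log_natCast_nonneg p) (Nat.cast_nonneg p))
    · refine le_trans ?_ (mul_le_mul_of_nonneg_left
        (show G (a + 1) - G a ≤ L / K + 2 * C by linarith) (by positivity))
      rw [← hw, mul_sum]
      refine sum_le_sum fun p hp => ?_
      rw [mul_comm (_ ^ j)]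
      exact mul_le_mul_of_nonneg_left
        (pow_le_pow_left₀ (Real.log_natCast_nonneg p) (hbnd p hp).2 j)
        (div_nonneg (Real.log_natCast_nonneg p) (Nat.cast_nonneg p))
  have hS : primeMoment j 0 t =
      ∑ a ∈ range K, ∑ p ∈ P (a + 1) \ P a, Real.log p / p * Real.log p ^ j := by
    rw [primeMoment, ← htel, hPK]
    simp
  have hlo := sum_le_sum (s := range K) fun a _ => (hstep a).1
  have hhi := sum_le_sum (s := range K) fun a _ => (hstep a).2
  rw [← hS] at hlo hhi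
  simp only [← sum_mul, div_pow, mul_pow, ← sum_div] at hlo hhi
  have hKj : (0 : ℝ) < (K : ℝ) ^ j := pow_pos hK0 j
  have hLj : 0 ≤ L ^ j / (K : ℝ) ^ j := by positivity
  have hLK : 0 ≤ L / K := by positivity
  have habs : 2 * C * K * L ^ j ≤ ε / 2 * L ^ (j + 1) + C' := hab L hL
  have hpow : ((K : ℝ) + 1) ^ (j + 1) ≤ (K : ℝ) ^ (j + 1) + 3 ^ (j + 1) * (K : ℝ) ^ j := by
    have key : ∀ n : ℕ, ((K : ℝ) + 1) ^ (n + 1) ≤
        (K : ℝ) ^ (n + 1) + 3 ^ (n + 1) * (K : ℝ) ^ n := by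
      intro n
      induction n with
      | zero => simp
      | succ n ih =>
        rw [pow_succ]
        refine (mul_le_mul_of_nonneg_right ih (by positivity)).trans ?_
        have h1 : (K : ℝ) ^ n ≤ (K : ℝ) ^ (n + 1) :=
          pow_le_pow_right₀ (Nat.one_le_cast.2 hK1) (Nat.le_succ n)
        have h2 := mul_le_mul_of_nonneg_left h1 (show (0 : ℝ) ≤ 3 ^ (n + 1) by positivity)
        have h3 : (1 : ℝ) ≤ 3 ^ (n + 1) := one_le_pow₀ (by norm_num)
        have h4 := mul_le_mul_of_nonneg_right h3 (show (0 : ℝ) ≤ (K : ℝ) ^ (n + 1) by positivity)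
        simp only [pow_succ] at *
        linarith
    exact key j
  have h3e : (3 : ℝ) ^ (j + 1) * (L ^ j / (K : ℝ) ^ j * (L / K)) * (K : ℝ) ^ j ≤
      ε / 2 * L ^ (j + 1) := by
    refine le_trans (le_of_eq ?_) (mul_le_mul_of_nonneg_right hKε (pow_nonneg hL (j + 1)))
    field_simp
    ring
  have hup : ∑ a ∈ range K, ((a : ℝ) + 1) ^ j ≤
      (K : ℝ) ^ (j + 1) / (j + 1) + 3 ^ (j + 1) * (K : ℝ) ^ j := by
    refine (sum_pow_le j K).trans ?_
    refine (div_le_div_of_nonneg_right hpow (by positivity)).trans ?_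
    rw [add_div]
    refine add_le_add le_rfl (div_le_self (by positivity) ?_)
    linarith [Nat.cast_nonneg (α := ℝ) j]
  have hdn : (K : ℝ) ^ (j + 1) / (j + 1) - 3 ^ (j + 1) * (K : ℝ) ^ j ≤
      ∑ a ∈ range K, (a : ℝ) ^ j := by
    refine le_trans ?_ (pow_div_le_sum_pow j K)
    have := mul_le_mul_of_nonneg_right
      (show (1 : ℝ) ≤ 3 ^ (j + 1) from one_le_pow₀ (by norm_num)) hKj.le
    linarith
  have hsum : ∀ a ∈ range K, (a : ℝ) ^ j ≤ (K : ℝ) ^ j := fun a ha =>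
    pow_le_pow_left₀ (Nat.cast_nonneg a) (Nat.cast_le.2 (mem_range.1 ha).le) j
  have hsum' : ∀ a ∈ range K, ((a : ℝ) + 1) ^ j ≤ (K : ℝ) ^ j := fun a ha =>
    pow_le_pow_left₀ (by positivity) (by exact_mod_cast (mem_range.1 ha)) j
  have hc1 := sum_le_card_nsmul _ _ _ hsum
  have hc2 := sum_le_card_nsmul _ _ _ hsum'
  rw [card_range, nsmul_eq_mul] at hc1 hc2
  have e0 : (K : ℝ) ^ (j + 1) / (j + 1) * (L ^ j / (K : ℝ) ^ j * (L / K)) =
      ((j : ℝ) + 1)⁻¹ * L ^ (j + 1) := by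
    field_simp
    ring
  have e1 : (K : ℝ) * (K : ℝ) ^ j * (L ^ j / (K : ℝ) ^ j * (2 * C)) = 2 * C * K * L ^ j := by
    field_simp
  rw [abs_le]
  constructor
  · have h1 := mul_le_mul_of_nonneg_right hdn (mul_nonneg hLj hLK)
    have h2 := mul_le_mul_of_nonneg_right hc1 (mul_nonneg hLj (by linarith : 0 ≤ 2 * C))
    refine le_trans ?_ (sub_le_sub_right hlo _)
    have e2 : (∑ a ∈ range K, (a : ℝ) ^ j) * L ^ j / (K : ℝ) ^ j * (L / K - 2 * C) =
        (∑ a ∈ range K, (a : ℝ) ^ j) * (L ^ j / (K : ℝ) ^ j * (L / K)) -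
          (∑ a ∈ range K, (a : ℝ) ^ j) * (L ^ j / (K : ℝ) ^ j * (2 * C)) := by ring
    rw [e2]
    linarith
  · have h1 := mul_le_mul_of_nonneg_right hup (mul_nonneg hLj hLK)
    have h2 := mul_le_mul_of_nonneg_right hc2 (mul_nonneg hLj (by linarith : 0 ≤ 2 * C))
    refine le_trans (sub_le_sub_right hhi _) ?_
    have e2 : (∑ a ∈ range K, ((a : ℝ) + 1) ^ j) * L ^ j / (K : ℝ) ^ j * (L / K + 2 * C) =
        (∑ a ∈ range K, ((a : ℝ) + 1) ^ j) * (L ^ j / (K : ℝ) ^ j * (L / K)) +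
          (∑ a ∈ range K, ((a : ℝ) + 1) ^ j) * (L ^ j / (K : ℝ) ^ j * (2 * C)) := by ring
    rw [e2]
    linarith

/-- `i! j! / (i + j + 1)!`. -/
def betaValue (j i : ℕ) : ℝ :=
  (i.factorial : ℝ) * j.factorial / ((i + j + 1).factorial : ℕ)

theorem betaValue_succ (j i : ℕ) : betaValue j (i + 1) = betaValue j i - betaValue (j + 1) i := by
  rw [betaValue, betaValue, betaValue, show i + 1 + j + 1 = (i + j + 1) + 1 by omega,
    show i + (j + 1) + 1 = (i + j + 1) + 1 by omega, Nat.factorial_succ (i + j + 1),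
    Nat.factorial_succ i, Nat.factorial_succ j]
  have h : ((i + j + 1).factorial : ℝ) ≠ 0 := Nat.cast_ne_zero.2 (Nat.factorial_ne_zero _)
  push_cast
  field_simp
  ring

/-- **The mixed sums.** -/
theorem approx_primeMoment : ∀ i j : ℕ, Approx (primeMoment j i) (i + j + 1) (betaValue j i) := by
  intro i
  induction i with
  | zero =>
    intro j
    have h := approx_primeMoment_zero j
    have e : betaValue j 0 = ((j : ℝ) + 1)⁻¹ := by
      have hj : (j.factorial : ℝ) ≠ 0 := Nat.cast_ne_zero.2 (Nat.factorial_ne_zero _)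
      rw [betaValue, zero_add, Nat.factorial_zero, Nat.factorial_succ]
      push_cast
      field_simp
    rw [e, zero_add]
    exact h
  | succ i ih =>
    intro j
    have h1 := (ih j).log_mul (by omega)
    have h2 := (ih (j + 1)).const_mul (-1)
    rw [show i + (j + 1) + 1 = i + j + 1 + 1 by omega] at h2
    have h := (h1.add h2).congr (g := primeMoment j (i + 1)) fun t _ => ?_
    · rw [betaValue_succ, show i + 1 + j + 1 = i + j + 1 + 1 by omega]
      rwa [neg_one_mul, ← sub_eq_add_neg] at h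
    · simp only [primeMoment, mul_sum, ← sum_add_distrib]
      exact sum_congr rfl fun p _ => by ring

/-- `∑_{p ≤ t} (log p / p) (log p) ^ j g (t / p)`. -/
def primeConv (j : ℕ) (g : ℝ → ℝ) (t : ℝ) : ℝ :=
  ∑ p ∈ primesUpTo ⌊t⌋₊, Real.log p / p * Real.log p ^ j * g (t / p)

/-- **Convolution with an approximated function.** -/
theorem Approx.conv {g : ℝ → ℝ} {i : ℕ} {c : ℝ} (hi : 1 ≤ i) (hg : Approx g i c) (j : ℕ) :
    Approx (primeConv j g) (i + j + 1) (c * betaValue j i) := by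
  intro ε hε
  have hB : 0 ≤ betaValue j i := by rw [betaValue]; positivity
  have hB0 : 0 ≤ betaValue j 0 := by rw [betaValue]; positivity
  obtain ⟨δ, hδ⟩ : ∃ δ, δ = ε / (3 * (betaValue j i + 1)) := ⟨_, rfl⟩
  have hδ0 : 0 < δ := hδ ▸ by positivity
  obtain ⟨C₁, hC₁, h1⟩ := hg δ hδ0
  obtain ⟨C₂, hC₂, h2⟩ := approx_primeMoment i j 1 one_pos
  obtain ⟨C₃, hC₃, h3⟩ := approx_primeMoment i j (ε / (3 * (|c| + 1))) (by positivity)
  obtain ⟨C₄, hC₄, h4⟩ := approx_primeMoment 0 j 1 one_pos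
  obtain ⟨C₅, hC₅, h5⟩ := exists_absorb (show 0 + j + 1 < i + j + 1 by omega)
    (C₁ * (betaValue j 0 + 1)) (show 0 < ε / 3 by positivity)
  refine ⟨|c| * C₃ + δ * C₂ + C₁ * C₄ + C₅, by positivity, fun t ht => ?_⟩
  obtain ⟨L, hLdef⟩ : ∃ L, L = Real.log t := ⟨_, rfl⟩
  have hL : 0 ≤ L := hLdef ▸ Real.log_nonneg ht
  have hterm : ∀ p ∈ primesUpTo ⌊t⌋₊, |g (t / p) - c * (L - Real.log p) ^ i| ≤
      δ * (L - Real.log p) ^ i + C₁ := fun p hp => by
    obtain ⟨hpp, hpt⟩ := mem_primesUpTo.1 hp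
    have hp0 : (0 : ℝ) < p := Nat.cast_pos.2 hpp.pos
    have h := h1 (t / p) (by
      rw [le_div_iff₀ hp0, one_mul]
      exact (Nat.cast_le.2 hpt).trans (Nat.floor_le (by linarith)))
    rwa [Real.log_div (by linarith) hp0.ne', ← hLdef] at h
  have hmain : |primeConv j g t - c * primeMoment j i t| ≤
      δ * primeMoment j i t + C₁ * primeMoment j 0 t := by
    simp only [primeConv, primeMoment, mul_sum, ← sum_sub_distrib, ← sum_add_distrib,
      ← hLdef]
    refine (abs_sum_le_sum_abs _ _).trans (sum_le_sum fun p hp => ?_)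
    have hw : 0 ≤ Real.log p / p * Real.log p ^ j := mul_nonneg
      (div_nonneg (Real.log_natCast_nonneg p) (Nat.cast_nonneg p))
      (pow_nonneg (Real.log_natCast_nonneg p) j)
    have e : Real.log p / p * Real.log p ^ j * g (t / p) -
        c * (Real.log p / p * Real.log p ^ j * (L - Real.log p) ^ i) =
        Real.log p / p * Real.log p ^ j * (g (t / p) - c * (L - Real.log p) ^ i) := by ring
    rw [e, abs_mul, abs_of_nonneg hw]
    refine (mul_le_mul_of_nonneg_left (hterm p hp) hw).trans (le_of_eq ?_)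
    ring
  have a2 := (abs_le.1 (h2 t ht)).2
  have a3 := h3 t ht
  have a4 := (abs_le.1 (h4 t ht)).2
  have a5 := h5 L hL
  rw [← hLdef] at a2 a3 a4 ⊢
  have b1 : |c * primeMoment j i t - c * betaValue j i * L ^ (i + j + 1)| ≤
      ε / 3 * L ^ (i + j + 1) + |c| * C₃ := by
    rw [mul_assoc c (betaValue j i), ← mul_sub, abs_mul]
    refine (mul_le_mul_of_nonneg_left a3 (abs_nonneg c)).trans ?_
    have : |c| * (ε / (3 * (|c| + 1))) ≤ ε / 3 := by
      rw [mul_div, div_le_div_iff₀ (by positivity) (by norm_num)]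
      linarith [abs_nonneg c]
    have := mul_le_mul_of_nonneg_right this (pow_nonneg hL (i + j + 1))
    linarith
  have b2 : δ * primeMoment j i t ≤ ε / 3 * L ^ (i + j + 1) + δ * C₂ := by
    have h := mul_le_mul_of_nonneg_left a2 hδ0.le
    have hd : δ * (betaValue j i + 1) = ε / 3 := by
      rw [hδ]
      field_simp
    have : δ * (betaValue j i + 1) * L ^ (i + j + 1) = ε / 3 * L ^ (i + j + 1) := by rw [hd]
    linarith
  have b3 : C₁ * primeMoment j 0 t ≤ C₁ * (betaValue j 0 + 1) * L ^ (0 + j + 1) + C₁ * C₄ := by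
    have h := mul_le_mul_of_nonneg_left a4 hC₁
    linarith
  calc |primeConv j g t - c * betaValue j i * L ^ (i + j + 1)|
      ≤ |primeConv j g t - c * primeMoment j i t| +
        |c * primeMoment j i t - c * betaValue j i * L ^ (i + j + 1)| := abs_sub_le _ _ _
    _ ≤ _ := by linarith

end FA.DivisorArcsine

end
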