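import Fermat.Agent.DivisorArcsine.Moments
import Mathlib.Analysis.SpecialFunctions.Integrals.Basic
import Mathlib.Topology.ContinuousMap.Weierstrass
import Mathlib.Analysis.SpecialFunctions.Pow.Asymptotics

/-!
# The arcsine law of the divisors

The moments `μ_k` are those of `sin ^ 2 θ`, `θ` uniform in `[0, π / 2]`. So, by the theorem of
Weierstrass, the divisors `d` of the `n ≤ N`, weighted by `1 / τ (n)`, have `log d / log N`
distributed in the limit as `sin ^ 2 θ`, and `log N` may be replaced by `log n`.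
-/

set_option autoImplicit false

noncomputable section

namespace FA.DivisorArcsine

open Finset Filter
open scoped Topology Real

/-- The mean of `φ (sin ^ 2 θ)` over `[0, π / 2]`. -/
def arcMean (φ : ℝ → ℝ) : ℝ := 2 / π * ∫ θ in (0 : ℝ)..π / 2, φ (Real.sin θ ^ 2)

theorem arcMean_pow (k : ℕ) : arcMean (fun x => x ^ k) = arcsineMoment k := by
  induction k with
  | zero =>
    simp only [arcMean, pow_zero, arcsineMoment, range_zero, prod_empty]
    rw [intervalIntegral.integral_const, sub_zero, smul_eq_mul]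
    field_simp
  | succ k ih =>
    simp only [arcMean, ← pow_mul] at ih ⊢
    rw [show 2 * (k + 1) = 2 * k + 2 by ring, integral_sin_pow, arcsineMoment_succ, ← ih,
      Real.cos_pi_div_two, Real.sin_zero, zero_pow (by omega)]
    push_cast
    ring

theorem intervalIntegrable_sin_sq {φ : ℝ → ℝ} (hφ : Continuous φ) (a b : ℝ) :
    IntervalIntegrable (fun θ => φ (Real.sin θ ^ 2)) MeasureTheory.volume a b :=
  (hφ.comp (by fun_prop)).intervalIntegrable a b

theorem arcMean_mono {φ ψ : ℝ → ℝ} (hφ : Continuous φ) (hψ : Continuous ψ)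
    (h : ∀ x ∈ Set.Icc (0 : ℝ) 1, φ x ≤ ψ x) : arcMean φ ≤ arcMean ψ :=
  mul_le_mul_of_nonneg_left (intervalIntegral.integral_mono_on (by positivity)
    (intervalIntegrable_sin_sq hφ _ _) (intervalIntegrable_sin_sq hψ _ _) fun θ _ =>
      h _ ⟨sq_nonneg _, Real.sin_sq_le_one θ⟩) (by positivity)

theorem arcMean_const (c : ℝ) : arcMean (fun _ => c) = c := by
  rw [arcMean, intervalIntegral.integral_const, sub_zero, smul_eq_mul]
  field_simp

theorem abs_arcMean_sub_le {φ ψ : ℝ → ℝ} (hφ : Continuous φ) (hψ : Continuous ψ) {ε : ℝ}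
    (h : ∀ x ∈ Set.Icc (0 : ℝ) 1, |φ x - ψ x| ≤ ε) : |arcMean φ - arcMean ψ| ≤ ε := by
  have e : arcMean (fun x => φ x - ψ x) = arcMean φ - arcMean ψ := by
    simp only [arcMean]
    rw [intervalIntegral.integral_sub (intervalIntegrable_sin_sq hφ _ _)
      (intervalIntegrable_sin_sq hψ _ _), mul_sub]
  rw [← e, abs_le]
  have h1 := arcMean_mono (φ := fun _ => -ε) continuous_const (hφ.sub hψ)
    fun x hx => (abs_le.1 (h x hx)).1
  have h2 := arcMean_mono (ψ := fun _ => ε) (hφ.sub hψ) continuous_const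
    fun x hx => (abs_le.1 (h x hx)).2
  rw [arcMean_const] at h1 h2
  exact ⟨h1, h2⟩

theorem arcMean_polynomial (q : Polynomial ℝ) :
    arcMean (fun x => q.eval x) = ∑ i ∈ range (q.natDegree + 1), q.coeff i * arcsineMoment i := by
  simp only [arcMean, Polynomial.eval_eq_sum_range, ← arcMean_pow]
  rw [intervalIntegral.integral_finsetSum fun i _ =>
    intervalIntegrable_sin_sq (φ := fun x => q.coeff i * x ^ i) (by fun_prop) _ _, mul_sum]
  refine sum_congr rfl fun i _ => ?_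
  rw [intervalIntegral.integral_const_mul]
  ring

/-- The mean of `φ (log d / log N)` over the divisors of the `n ≤ N`, each `n` of weight `1`. -/
def divisorAvg (φ : ℝ → ℝ) (N : ℕ) : ℝ :=
  (∑ n ∈ Icc 1 N, (∑ d ∈ n.divisors, φ (Real.log d / Real.log N)) / (n.divisors.card : ℝ)) / N

theorem divisorAvg_mono {φ ψ : ℝ → ℝ} {N : ℕ} (h : ∀ x ∈ Set.Icc (0 : ℝ) 1, φ x ≤ ψ x) :
    divisorAvg φ N ≤ divisorAvg ψ N := by
  refine div_le_div_of_nonneg_right (sum_le_sum fun n hn => div_le_div_of_nonneg_right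
    (sum_le_sum fun d hd => h _ ⟨div_nonneg (Real.log_natCast_nonneg d)
      (Real.log_natCast_nonneg N), ?_⟩) (Nat.cast_nonneg _)) (Nat.cast_nonneg N)
  refine div_le_one_of_le₀ (Real.log_le_log (Nat.cast_pos.2 (Nat.pos_of_mem_divisors hd))
    (Nat.cast_le.2 ((Nat.divisor_le hd).trans (mem_Icc.1 hn).2))) (Real.log_natCast_nonneg N)

theorem divisorAvg_const (c : ℝ) {N : ℕ} (hN : 1 ≤ N) : divisorAvg (fun _ => c) N = c := by
  rw [divisorAvg, sum_congr rfl (g := fun _ => c) fun n hn => ?_, sum_const, Nat.card_Icc,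
    Nat.add_sub_cancel, nsmul_eq_mul, mul_div_cancel_left₀ _ (Nat.cast_ne_zero.2 (by omega))]
  rw [sum_const, nsmul_eq_mul, mul_div_cancel_left₀ _ (Nat.cast_ne_zero.2 (card_ne_zero.2
    ⟨n, Nat.mem_divisors_self n (Nat.one_le_iff_ne_zero.1 (mem_Icc.1 hn).1)⟩))]

theorem divisorAvg_pow (k : ℕ) {N : ℕ} :
    divisorAvg (fun x => x ^ k) N = scaledMoment k (N : ℝ) / Real.log N ^ k := by
  simp only [divisorAvg, scaledMoment, Nat.floor_natCast, divisorMean, div_pow, ← sum_div]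
  rw [div_right_comm]
  refine congrArg (· / _) ?_
  rw [sum_div]
  exact sum_congr rfl fun n _ => div_right_comm _ _ _

theorem tendsto_divisorAvg_pow (k : ℕ) :
    Tendsto (divisorAvg fun x => x ^ k) atTop (𝓝 (arcsineMoment k)) := by
  rcases Nat.eq_zero_or_pos k with rfl | hk
  · refine tendsto_const_nhds.congr' ?_
    filter_upwards [eventually_ge_atTop 1] with N hN
    simp only [pow_zero]
    rw [divisorAvg_const 1 hN]
    simp [arcsineMoment]
  refine Metric.tendsto_nhds.2 fun ε hε => ?_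
  obtain ⟨C, hC, h⟩ := approx_scaledMoment k hk (ε / 2) (half_pos hε)
  have hl : Tendsto (fun N : ℕ => Real.log N ^ k) atTop atTop :=
    (tendsto_pow_atTop (by omega)).comp (Real.tendsto_log_atTop.comp tendsto_natCast_atTop_atTop)
  filter_upwards [hl.eventually_gt_atTop (2 * C / ε), hl.eventually_gt_atTop 0,
    eventually_ge_atTop 1] with N hN hpos hN1
  have h' := h N (Nat.one_le_cast.2 hN1)
  rw [divisorAvg_pow k, Real.dist_eq, div_sub' hpos.ne', abs_div, abs_of_pos hpos,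
    div_lt_iff₀ hpos, mul_comm (Real.log N ^ k)]
  rw [div_lt_iff₀ hε] at hN
  linarith

/-- **Convergence for the continuous test functions.** -/
theorem tendsto_divisorAvg {φ : ℝ → ℝ} (hφ : Continuous φ) :
    Tendsto (divisorAvg φ) atTop (𝓝 (arcMean φ)) := by
  refine Metric.tendsto_nhds.2 fun ε hε => ?_
  obtain ⟨q, hq⟩ := exists_polynomial_near_of_continuousOn 0 1 φ hφ.continuousOn (ε / 4)
    (by positivity)
  have hpoly : Tendsto (divisorAvg fun x => q.eval x) atTop (𝓝 (arcMean fun x => q.eval x)) := by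
    rw [arcMean_polynomial]
    refine (tendsto_finsetSum (range (q.natDegree + 1)) fun i _ =>
      (tendsto_divisorAvg_pow i).const_mul (q.coeff i)).congr fun N => ?_
    simp only [divisorAvg, Polynomial.eval_eq_sum_range, sum_div, mul_sum]
    rw [sum_comm]
    refine sum_congr rfl fun n _ => ?_
    rw [sum_comm]
    exact sum_congr rfl fun d _ => sum_congr rfl fun i _ => by ring
  filter_upwards [Metric.tendsto_nhds.1 hpoly (ε / 4) (by positivity), eventually_ge_atTop 1]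
    with N hN hN1
  rw [Real.dist_eq] at hN ⊢
  have hnear : ∀ x ∈ Set.Icc (0 : ℝ) 1, |φ x - q.eval x| ≤ ε / 4 := fun x hx => by
    rw [abs_sub_comm]
    exact (hq x hx).le
  have h1 := abs_arcMean_sub_le hφ q.continuous hnear
  have h2 : |divisorAvg φ N - divisorAvg (fun x => q.eval x) N| ≤ ε / 4 := by
    have hsum : ∀ c : ℝ, divisorAvg (fun x => q.eval x + c) N =
        divisorAvg (fun x => q.eval x) N + c := fun c => by
      conv_rhs => rw [← divisorAvg_const c hN1]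
      simp only [divisorAvg, sum_add_distrib, add_div]
    have a := divisorAvg_mono (N := N) (φ := φ) (ψ := fun x => q.eval x + ε / 4) fun x hx => by
      linarith [(abs_le.1 (hnear x hx)).2]
    have b := divisorAvg_mono (N := N) (φ := fun x => q.eval x + -(ε / 4)) (ψ := φ) fun x hx => by
      linarith [(abs_le.1 (hnear x hx)).1]
    rw [hsum] at a b
    rw [abs_le]
    constructor <;> linarith
  have h3 := abs_sub_le (divisorAvg φ N) (divisorAvg (fun x => q.eval x) N) (arcMean φ)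
  have h4 := abs_sub_le (divisorAvg (fun x => q.eval x) N) (arcMean fun x => q.eval x) (arcMean φ)
  rw [abs_sub_comm] at h1
  linarith

/-- `(2 / π) arcsin √u`. -/
def arcsineLaw (u : ℝ) : ℝ := 2 / π * Real.arcsin (√u)

theorem continuous_arcsineLaw : Continuous arcsineLaw :=
  (Real.continuous_arcsin.comp Real.continuous_sqrt).const_mul _

theorem arcsin_sqrt_mem (u : ℝ) : Real.arcsin (√u) ∈ Set.Icc 0 (π / 2) :=
  ⟨Real.arcsin_nonneg.2 (Real.sqrt_nonneg u), Real.arcsin_le_pi_div_two _⟩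

theorem arcMean_le_arcsineLaw {φ : ℝ → ℝ} (hφ : Continuous φ) {v : ℝ} (h1 : ∀ x, φ x ≤ 1)
    (h0 : ∀ x ∈ Set.Icc (0 : ℝ) 1, v ≤ x → φ x ≤ 0) : arcMean φ ≤ arcsineLaw v := by
  obtain ⟨θ₀, hθ⟩ : ∃ θ₀, θ₀ = Real.arcsin (√v) := ⟨_, rfl⟩
  obtain ⟨ha, hb⟩ : θ₀ ∈ Set.Icc 0 (π / 2) := hθ ▸ arcsin_sqrt_mem v
  rw [arcMean, arcsineLaw, ← hθ, ← intervalIntegral.integral_add_adjacent_intervals
    (intervalIntegrable_sin_sq hφ 0 θ₀) (intervalIntegrable_sin_sq hφ θ₀ (π / 2))]
  refine mul_le_mul_of_nonneg_left ?_ (by positivity)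
  have e1 := intervalIntegral.integral_mono_on ha (intervalIntegrable_sin_sq hφ 0 θ₀)
    intervalIntegrable_const fun θ _ => h1 (Real.sin θ ^ 2)
  have e2 : ∫ θ in θ₀..π / 2, φ (Real.sin θ ^ 2) ≤ ∫ _ in θ₀..π / 2, (0 : ℝ) := by
    rcases lt_or_ge 1 v with hv1 | hv1
    · rw [hθ, Real.arcsin_of_one_le (Real.one_le_sqrt.2 hv1.le), intervalIntegral.integral_same,
        intervalIntegral.integral_same]
    refine intervalIntegral.integral_mono_on hb (intervalIntegrable_sin_sq hφ _ _)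
      intervalIntegrable_const fun θ hθ' => h0 _ ⟨sq_nonneg _, Real.sin_sq_le_one θ⟩ ?_
    have hsin : 0 ≤ Real.sin θ := Real.sin_nonneg_of_nonneg_of_le_pi (ha.trans hθ'.1)
      (hθ'.2.trans (by linarith [Real.pi_pos]))
    have := Real.sin_le_sin_of_le_of_le_pi_div_two
      (by linarith [Real.pi_pos] : -(π / 2) ≤ θ₀) hθ'.2 hθ'.1
    rw [hθ, Real.sin_arcsin (by linarith [Real.sqrt_nonneg v]) (Real.sqrt_le_one.2 hv1)] at this
    exact (Real.sqrt_le_left hsin).1 this
  rw [intervalIntegral.integral_const, sub_zero, smul_eq_mul, mul_one] at e1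
  rw [intervalIntegral.integral_const, smul_zero] at e2
  linarith

theorem arcsineLaw_le_arcMean {φ : ℝ → ℝ} (hφ : Continuous φ) {v : ℝ} (h0 : ∀ x, 0 ≤ φ x)
    (h1 : ∀ x ∈ Set.Icc (0 : ℝ) 1, x ≤ v → 1 ≤ φ x) : arcsineLaw v ≤ arcMean φ := by
  obtain ⟨θ₀, hθ⟩ : ∃ θ₀, θ₀ = Real.arcsin (√v) := ⟨_, rfl⟩
  obtain ⟨ha, hb⟩ : θ₀ ∈ Set.Icc 0 (π / 2) := hθ ▸ arcsin_sqrt_mem v
  rw [arcMean, arcsineLaw, ← hθ, ← intervalIntegral.integral_add_adjacent_intervals
    (intervalIntegrable_sin_sq hφ 0 θ₀) (intervalIntegrable_sin_sq hφ θ₀ (π / 2))]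
  refine mul_le_mul_of_nonneg_left ?_ (by positivity)
  have e2 := intervalIntegral.integral_nonneg hb (μ := MeasureTheory.volume)
    fun θ _ => h0 (Real.sin θ ^ 2)
  have e1 : ∫ _ in (0 : ℝ)..θ₀, (1 : ℝ) ≤ ∫ θ in (0 : ℝ)..θ₀, φ (Real.sin θ ^ 2) := by
    rcases lt_or_ge v 0 with hv | hv
    · rw [hθ, Real.sqrt_eq_zero_of_nonpos hv.le, Real.arcsin_zero, intervalIntegral.integral_same,
        intervalIntegral.integral_same]
    refine intervalIntegral.integral_mono_on ha intervalIntegrable_const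
      (intervalIntegrable_sin_sq hφ _ _) fun θ hθ' => h1 _ ⟨sq_nonneg _, Real.sin_sq_le_one θ⟩ ?_
    rcases le_or_gt v 1 with hv1 | hv1
    · have hsin : 0 ≤ Real.sin θ := Real.sin_nonneg_of_nonneg_of_le_pi hθ'.1
        (hθ'.2.trans (hb.trans (by linarith [Real.pi_pos])))
      have := Real.sin_le_sin_of_le_of_le_pi_div_two
        (by linarith [Real.pi_pos, hθ'.1] : -(π / 2) ≤ θ) hb hθ'.2
      rw [hθ, Real.sin_arcsin (by linarith [Real.sqrt_nonneg v]) (Real.sqrt_le_one.2 hv1)] at this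
      exact (Real.le_sqrt hsin hv).1 this
    · exact (Real.sin_sq_le_one θ).trans hv1.le
  rw [intervalIntegral.integral_const, sub_zero, smul_eq_mul, mul_one] at e1
  linarith

/-- `1` up to `a`, `0` from `a + η` on. -/
def ramp (a η x : ℝ) : ℝ := max 0 (min 1 (1 - (x - a) / η))

theorem ramp_spec {η : ℝ} (hη : 0 < η) (a : ℝ) : Continuous (ramp a η) ∧
    (∀ x, 0 ≤ ramp a η x) ∧ (∀ x, ramp a η x ≤ 1) ∧ (∀ x, x ≤ a → 1 ≤ ramp a η x) ∧
    ∀ x, a + η ≤ x → ramp a η x ≤ 0 := by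
  refine ⟨?_, fun x => le_max_left _ _, fun x => max_le zero_le_one (min_le_left _ _),
    fun x hx => le_max_of_le_right (le_min le_rfl ?_),
    fun x hx => max_le le_rfl ((min_le_right _ _).trans ?_)⟩
  · exact continuous_const.max (continuous_const.min
      (continuous_const.sub ((continuous_id.sub continuous_const).div_const η)))
  · have : (x - a) / η ≤ 0 := div_nonpos_of_nonpos_of_nonneg (sub_nonpos.2 hx) hη.le
    linarith
  · have : 1 ≤ (x - a) / η := by
      rw [le_div_iff₀ hη]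
      linarith
    linarith

/-- `#{d ∣ n : d ≤ n ^ u} / τ (n)`, summed over `n ≤ N`, over `N`. -/
def belowShare (u : ℝ) (N : ℕ) : ℝ :=
  (∑ n ∈ Icc 1 N, ((n.divisors.filter fun d : ℕ => (d : ℝ) ≤ (n : ℝ) ^ u).card : ℝ) /
    (n.divisors.card : ℝ)) / N

theorem belowShare_le {u η : ℝ} (hu : 0 ≤ u) (hη : 0 < η) {N : ℕ} (hN : 2 ≤ N) :
    belowShare u N ≤ divisorAvg (ramp u η) N := by
  obtain ⟨-, h0, -, h1, -⟩ := ramp_spec hη u
  refine div_le_div_of_nonneg_right (sum_le_sum fun n hn => div_le_div_of_nonneg_right ?_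
    (Nat.cast_nonneg _)) (Nat.cast_nonneg N)
  refine le_trans ?_ (sum_le_sum_of_subset_of_nonneg
    (filter_subset (fun d : ℕ => (d : ℝ) ≤ (n : ℝ) ^ u) _) fun d _ _ => h0 _)
  rw [← nsmul_one (A := ℝ)]
  refine card_nsmul_le_sum _ _ _ fun d hd => h1 _ ?_
  obtain ⟨hd, hdu⟩ := mem_filter.1 hd
  have hd0 : (0 : ℝ) < d := Nat.cast_pos.2 (Nat.pos_of_mem_divisors hd)
  have hn0 : (0 : ℝ) < n := Nat.cast_pos.2 (mem_Icc.1 hn).1
  rw [div_le_iff₀ (Real.log_pos (Nat.one_lt_cast.2 (by omega)))]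
  refine (Real.log_le_log hd0 hdu).trans ?_
  rw [Real.log_rpow hn0]
  exact mul_le_mul_of_nonneg_left (Real.log_le_log hn0 (Nat.cast_le.2 (mem_Icc.1 hn).2)) hu

theorem le_belowShare {u η : ℝ} (hu0 : 0 ≤ u) (hu1 : u ≤ 1) (hη : 0 < η) {N : ℕ} (hN : 2 ≤ N) :
    divisorAvg (ramp (u - 2 * η) η) N - (N : ℝ) ^ (-η) ≤ belowShare u N := by
  obtain ⟨-, h0, hle, -, hz⟩ := ramp_spec hη (u - 2 * η)
  have hN0 : (0 : ℝ) < N := Nat.cast_pos.2 (by omega)
  have hlN : 0 < Real.log N := Real.log_pos (Nat.one_lt_cast.2 (by omega))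
  have hterm : ∀ n ∈ Icc 1 N, (∑ d ∈ n.divisors, ramp (u - 2 * η) η (Real.log d / Real.log N)) /
      (n.divisors.card : ℝ) ≤ ((n.divisors.filter fun d : ℕ => (d : ℝ) ≤ (n : ℝ) ^ u).card : ℝ) /
        (n.divisors.card : ℝ) + if (n : ℝ) ≤ (N : ℝ) ^ (1 - η) then 1 else 0 := fun n hn => by
    have hn0 : (0 : ℝ) < n := Nat.cast_pos.2 (mem_Icc.1 hn).1
    split_ifs with hsmall
    · refine (div_le_one_of_le₀ ?_ (Nat.cast_nonneg _)).trans
        (le_add_of_nonneg_left (by positivity))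
      exact (sum_le_card_nsmul _ _ 1 fun d _ => hle _).trans_eq (by simp)
    · rw [add_zero]
      refine div_le_div_of_nonneg_right ?_ (Nat.cast_nonneg _)
      rw [← sum_filter_add_sum_filter_not n.divisors fun d : ℕ => (d : ℝ) ≤ (n : ℝ) ^ u]
      refine le_trans (add_le_add ((sum_le_card_nsmul _ _ 1 fun d _ => hle _).trans_eq (by simp))
        (sum_nonpos fun d hd => hz _ ?_)) (add_zero _).le
      obtain ⟨hd, hdu⟩ := mem_filter.1 hd
      have hd0 : (0 : ℝ) < d := Nat.cast_pos.2 (Nat.pos_of_mem_divisors hd)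
      rw [not_le] at hdu hsmall
      have h1 := Real.log_lt_log (by positivity) hdu
      have h2 := Real.log_lt_log (by positivity) hsmall
      rw [Real.log_rpow hn0] at h1
      rw [Real.log_rpow hN0] at h2
      rw [le_div_iff₀ hlN]
      have h3 := mul_le_mul_of_nonneg_left h2.le hu0
      have h4 := mul_le_mul_of_nonneg_right hu1 (mul_nonneg hη.le hlN.le)
      linarith
  have hs := sum_le_sum hterm
  rw [sum_add_distrib, sum_boole] at hs
  have hc : (((Icc 1 N).filter fun n : ℕ => (n : ℝ) ≤ (N : ℝ) ^ (1 - η)).card : ℝ) ≤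
      (N : ℝ) ^ (1 - η) := by
    refine le_trans (Nat.cast_le.2 (card_le_card (t := Icc 1 ⌊(N : ℝ) ^ (1 - η)⌋₊) fun n hn => ?_))
      ?_
    · obtain ⟨hn, h⟩ := mem_filter.1 hn
      exact mem_Icc.2 ⟨(mem_Icc.1 hn).1, Nat.le_floor h⟩
    · rw [Nat.card_Icc, Nat.add_sub_cancel]
      exact Nat.floor_le (by positivity)
  rw [divisorAvg, belowShare, sub_le_iff_le_add, div_le_iff₀ hN0, add_mul,
    div_mul_cancel₀ _ hN0.ne', show (N : ℝ) ^ (-η) * N = (N : ℝ) ^ (1 - η) by
      rw [← Real.rpow_add_one hN0.ne', add_comm, ← sub_eq_add_neg]]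
  linarith

/-- **The arcsine law of Deshouillers, Dress and Tenenbaum.** -/
theorem tendsto_belowShare {u : ℝ} (hu0 : 0 ≤ u) (hu1 : u ≤ 1) :
    Tendsto (belowShare u) atTop (𝓝 (arcsineLaw u)) := by
  refine Metric.tendsto_nhds.2 fun ε hε => ?_
  obtain ⟨r, hr, hcont⟩ := Metric.continuous_iff.1 continuous_arcsineLaw u (ε / 3) (by positivity)
  obtain ⟨η, hη⟩ : ∃ η, η = r / 3 := ⟨_, rfl⟩
  have hη0 : 0 < η := by linarith
  have c1 := abs_lt.1 (hcont (u + η) (by rw [Real.dist_eq, abs_lt]; constructor <;> linarith))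
  have c2 := abs_lt.1 (hcont (u - 2 * η) (by rw [Real.dist_eq, abs_lt]; constructor <;> linarith))
  obtain ⟨hA, a0, a1, a2, a3⟩ := ramp_spec hη0 u
  obtain ⟨hB, b0, b1, b2, b3⟩ := ramp_spec hη0 (u - 2 * η)
  have hup := arcMean_le_arcsineLaw (v := u + η) hA a1 fun x _ => a3 x
  have hdn := arcsineLaw_le_arcMean (v := u - 2 * η) hB b0 fun x _ => b2 x
  have hsmall : Tendsto (fun N : ℕ => (N : ℝ) ^ (-η)) atTop (𝓝 0) :=
    (tendsto_rpow_neg_atTop hη0).comp tendsto_natCast_atTop_atTop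
  filter_upwards [Metric.tendsto_nhds.1 (tendsto_divisorAvg hA) (ε / 3) (by positivity),
    Metric.tendsto_nhds.1 (tendsto_divisorAvg hB) (ε / 3) (by positivity),
    hsmall.eventually (gt_mem_nhds (show 0 < ε / 3 by positivity)), eventually_ge_atTop 2]
    with N hNA hNB hN hN2
  rw [Real.dist_eq, abs_lt] at hNA hNB ⊢
  have d1 := belowShare_le hu0 hη0 hN2
  have d2 := le_belowShare hu0 hu1 hη0 hN2
  constructor <;> linarith

end FA.DivisorArcsine

end
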