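import Fermat.Agent.DivisorArcsine.Approx
import Mathlib.NumberTheory.ArithmeticFunction.Misc

/-!
# The moments of `log d / log n` over the divisors

With `M_k (t) = ∑_{n ≤ t} τ (n)⁻¹ ∑_{d ∣ n} (log d) ^ k`, the formula `log d = ∑_{e ∣ d} Λ e` gives
`M_{k+1} (t) = ½ ∑_{p ≤ t} log p ∑_j C (k, j) (log p) ^ j M_{k-j} (t / p)` up to
`O (t (log t) ^ k)`,
so that `M_k (t) / t ~ μ_k (log t) ^ k` with `μ_k = ∏_{i < k} (2 i + 1) / (2 i + 2)`.
-/

set_option autoImplicit false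

noncomputable section

namespace FA.DivisorArcsine

open Finset ArithmeticFunction
open FA.ErdosKac (primesUpTo mem_primesUpTo)

/-- `τ (n)⁻¹ ∑_{d ∣ n} (log d) ^ k`. -/
def divisorMean (k n : ℕ) : ℝ := (∑ d ∈ n.divisors, Real.log d ^ k) / (n.divisors.card : ℝ)

/-- `(1 / t) ∑_{n ≤ t} τ (n)⁻¹ ∑_{d ∣ n} (log d) ^ k`. -/
def scaledMoment (k : ℕ) (t : ℝ) : ℝ := (∑ n ∈ Icc 1 ⌊t⌋₊, divisorMean k n) / t

/-- `μ_k = ∏_{i < k} (2 i + 1) / (2 i + 2)`. -/
def arcsineMoment (k : ℕ) : ℝ := ∏ i ∈ range k, (2 * (i : ℝ) + 1) / (2 * i + 2)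

theorem arcsineMoment_succ (k : ℕ) :
    arcsineMoment (k + 1) = arcsineMoment k * ((2 * (k : ℝ) + 1) / (2 * k + 2)) := by
  rw [arcsineMoment, arcsineMoment, prod_range_succ]

theorem sum_arcsineMoment (k : ℕ) :
    ∑ i ∈ range (k + 1), arcsineMoment i = (2 * (k : ℝ) + 1) * arcsineMoment k := by
  induction k with
  | zero => simp [arcsineMoment]
  | succ k ih =>
    rw [sum_range_succ, ih, arcsineMoment_succ]
    push_cast
    field_simp

/-- The summand of the pair `(e, m)`. -/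
def pairTerm (k e m : ℕ) : ℝ :=
  (∑ d ∈ m.divisors, (Real.log e + Real.log d) ^ k) / ((e * m).divisors.card : ℝ)

/-- **The divisor recursion.** -/
theorem divisorMean_succ (k n : ℕ) :
    divisorMean (k + 1) n = ∑ e ∈ n.divisors, Λ e * pairTerm k e (n / e) := by
  have h : ∀ e ∈ n.divisors, Λ e * pairTerm k e (n / e) =
      (∑ d ∈ (n / e).divisors, Λ e * Real.log (e * d : ℕ) ^ k) / (n.divisors.card : ℝ) :=
    fun e he => by
      have hed := (Nat.mem_divisors.1 he).1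
      rw [pairTerm, Nat.mul_div_cancel' hed, ← mul_div_assoc, mul_sum]
      refine congrArg (· / _) (sum_congr rfl fun d hd => ?_)
      rw [Nat.cast_mul, Real.log_mul (Nat.cast_ne_zero.2 (Nat.pos_of_mem_divisors he).ne')
        (Nat.cast_ne_zero.2 (Nat.pos_of_mem_divisors hd).ne')]
  rw [sum_congr rfl h, ← sum_div, divisorMean]
  refine congrArg (· / _) ?_
  have h2 : ∀ d ∈ n.divisors, Real.log d ^ (k + 1) = ∑ e ∈ d.divisors, Λ e * Real.log d ^ k :=
    fun d _ => by rw [← sum_mul, vonMangoldt_sum, pow_succ']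
  rw [sum_congr rfl h2, sum_sigma', sum_sigma']
  refine sum_bij' (fun u _ => (⟨u.2, u.1 / u.2⟩ : Σ _ : ℕ, ℕ))
    (fun u _ => (⟨u.1 * u.2, u.1⟩ : Σ _ : ℕ, ℕ)) (fun u hu => ?_) (fun u hu => ?_)
    (fun u hu => ?_) (fun u hu => ?_) (fun u hu => ?_)
  · simp only [mem_sigma, Nat.mem_divisors] at hu ⊢
    obtain ⟨⟨hd, hn⟩, he, hd0⟩ := hu
    exact ⟨⟨he.trans hd, hn⟩, Nat.div_dvd_div he hd, Nat.div_ne_zero_iff.2
      ⟨(Nat.pos_of_dvd_of_pos he (Nat.pos_of_ne_zero hd0)).ne',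
        Nat.le_of_dvd (Nat.pos_of_ne_zero hn) (he.trans hd)⟩⟩
  · simp only [mem_sigma, Nat.mem_divisors] at hu ⊢
    obtain ⟨⟨he, hn⟩, hd, hne⟩ := hu
    exact ⟨⟨Nat.mul_dvd_of_dvd_div he hd, hn⟩, dvd_mul_right _ _, Nat.mul_ne_zero
      (Nat.pos_of_dvd_of_pos he (Nat.pos_of_ne_zero hn)).ne'
      (Nat.pos_of_dvd_of_pos hd (Nat.pos_of_ne_zero hne)).ne'⟩
  · simp only [mem_sigma, Nat.mem_divisors] at hu
    simp only [Nat.mul_div_cancel' hu.2.1]
  · simp only [mem_sigma, Nat.mem_divisors] at hu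
    simp only [Nat.mul_div_cancel_left _ (Nat.pos_of_dvd_of_pos hu.1.1 (Nat.pos_of_ne_zero hu.1.2))]
  · simp only [mem_sigma, Nat.mem_divisors] at hu
    simp only [Nat.mul_div_cancel' hu.2.1]

theorem sum_divisors_Icc (N : ℕ) (φ : ℕ → ℕ → ℝ) :
    ∑ n ∈ Icc 1 N, ∑ e ∈ n.divisors, φ e (n / e) =
      ∑ e ∈ Icc 1 N, ∑ m ∈ Icc 1 (N / e), φ e m := by
  rw [sum_sigma', sum_sigma']
  refine sum_bij' (fun u _ => (⟨u.2, u.1 / u.2⟩ : Σ _ : ℕ, ℕ))
    (fun u _ => (⟨u.1 * u.2, u.1⟩ : Σ _ : ℕ, ℕ)) (fun u hu => ?_) (fun u hu => ?_)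
    (fun u hu => ?_) (fun u hu => ?_) (fun u hu => rfl)
  · simp only [mem_sigma, Nat.mem_divisors, mem_Icc] at hu ⊢
    obtain ⟨⟨hn1, hnN⟩, he, -⟩ := hu
    have he0 := Nat.pos_of_dvd_of_pos he hn1
    exact ⟨⟨he0, (Nat.le_of_dvd hn1 he).trans hnN⟩,
      (Nat.one_le_div_iff he0).2 (Nat.le_of_dvd hn1 he), Nat.div_le_div_right hnN⟩
  · simp only [mem_sigma, Nat.mem_divisors, mem_Icc] at hu ⊢
    obtain ⟨⟨he, -⟩, hm, hmN⟩ := hu
    rw [Nat.le_div_iff_mul_le he, mul_comm] at hmN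
    exact ⟨⟨Nat.mul_pos he hm, hmN⟩, dvd_mul_right _ _, (Nat.mul_pos he hm).ne'⟩
  · simp only [mem_sigma, Nat.mem_divisors, mem_Icc] at hu
    simp only [Nat.mul_div_cancel' hu.2.1]
  · simp only [mem_sigma, mem_Icc] at hu
    simp only [Nat.mul_div_cancel_left _ hu.1.1]

theorem pairTerm_bounds (k : ℕ) {e m N : ℕ} (he : 1 ≤ e) (hm : 1 ≤ m) (h : e * m ≤ N) :
    0 ≤ pairTerm k e m ∧ pairTerm k e m ≤ Real.log N ^ k ∧
      0 ≤ (∑ d ∈ m.divisors, (Real.log e + Real.log d) ^ k) / (m.divisors.card : ℝ) ∧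
      (∑ d ∈ m.divisors, (Real.log e + Real.log d) ^ k) / (m.divisors.card : ℝ) ≤
        Real.log N ^ k := by
  have h0 : 0 ≤ ∑ d ∈ m.divisors, (Real.log e + Real.log d) ^ k := sum_nonneg fun d _ =>
    pow_nonneg (add_nonneg (Real.log_natCast_nonneg e) (Real.log_natCast_nonneg d)) k
  have hle : ∀ d ∈ m.divisors, (Real.log e + Real.log d) ^ k ≤ Real.log N ^ k := fun d hd => by
    refine pow_le_pow_left₀ (add_nonneg (Real.log_natCast_nonneg e) (Real.log_natCast_nonneg d))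
      ?_ k
    have hd0 := Nat.pos_of_mem_divisors hd
    rw [← Real.log_mul (Nat.cast_ne_zero.2 (by omega)) (Nat.cast_ne_zero.2 (by omega))]
    refine Real.log_le_log (mul_pos (Nat.cast_pos.2 he) (Nat.cast_pos.2 hd0)) ?_
    exact_mod_cast (Nat.mul_le_mul_left e (Nat.divisor_le hd)).trans h
  have hs := sum_le_card_nsmul _ _ _ hle
  rw [nsmul_eq_mul] at hs
  have hc : (m.divisors.card : ℝ) ≤ ((e * m).divisors.card : ℝ) := Nat.cast_le.2 (card_le_card
    (Nat.divisors_subset_of_dvd (Nat.mul_ne_zero (by omega) (by omega)) (dvd_mul_left m e)))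
  have hm0 : (0 : ℝ) < m.divisors.card :=
    Nat.cast_pos.2 (card_pos.2 ⟨m, Nat.mem_divisors_self m (by omega)⟩)
  have hN : 0 ≤ Real.log N ^ k := pow_nonneg (Real.log_natCast_nonneg N) k
  refine ⟨div_nonneg h0 (Nat.cast_nonneg _), ?_, div_nonneg h0 (Nat.cast_nonneg _), ?_⟩
  · rw [pairTerm, div_le_iff₀ (hm0.trans_le hc)]
    refine hs.trans ?_
    rw [mul_comm]
    exact mul_le_mul_of_nonneg_left hc hN
  · rw [div_le_iff₀ hm0]
    linarith

theorem pairTerm_of_coprime {p m : ℕ} (k : ℕ) (hp : p.Prime) (h : ¬p ∣ m) :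
    pairTerm k p m =
      1 / 2 * ((∑ d ∈ m.divisors, (Real.log p + Real.log d) ^ k) / (m.divisors.card : ℝ)) := by
  rw [pairTerm, Nat.Coprime.card_divisors_mul (hp.coprime_iff_not_dvd.2 h), hp.divisors,
    card_pair hp.one_lt.ne]
  push_cast
  ring

/-- The main term: `½ ∑_j C (k, j) ∑_p log p (log p) ^ j M_{k-j} (N / p)`. -/
theorem sum_half_eq (k N : ℕ) :
    ∑ p ∈ primesUpTo N, Real.log p * ∑ m ∈ Icc 1 (N / p),
        1 / 2 * ((∑ d ∈ m.divisors, (Real.log p + Real.log d) ^ k) / (m.divisors.card : ℝ)) =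
      ∑ j ∈ range (k + 1), (k.choose j : ℝ) / 2 * ∑ p ∈ primesUpTo N,
        Real.log p * Real.log p ^ j * ∑ m ∈ Icc 1 (N / p), divisorMean (k - j) m := by
  simp only [divisorMean, add_pow, sum_div, mul_sum]
  conv_rhs => rw [sum_comm]
  refine sum_congr rfl fun p _ => ?_
  conv_rhs => rw [sum_comm]
  refine sum_congr rfl fun m _ => ?_
  rw [sum_comm]
  exact sum_congr rfl fun j _ => sum_congr rfl fun d _ => by ring

/-- `∑` of `log p / p ^ 2` and of `Λ e / e` off the primes. -/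
theorem exists_tail_le : ∃ C : ℝ, ∀ N : ℕ, 1 ≤ N →
    ∑ e ∈ (Icc 1 N).filter (fun e => ¬e.Prime), Λ e / e ≤ C ∧
      ∑ p ∈ primesUpTo N, Real.log p / (p : ℝ) ^ 2 ≤ C := by
  obtain ⟨C, hC⟩ := ErdosKac.exists_abs_sum_log_div_sub_le
  have hA : ∀ N : ℕ, 1 ≤ N →
      ∑ e ∈ (Icc 1 N).filter (fun e => ¬e.Prime), Λ e / e ≤ 6 + C := fun N hN => by
    have h1 := (abs_le.1 (PrimesMinusOne.abs_sum_vonMangoldt_div_sub_le hN)).2
    have h2 := (abs_le.1 (hC N hN)).1
    rw [show Ioc 0 N = Icc 1 N from rfl, ← sum_filter_add_sum_filter_not (Icc 1 N) Nat.Prime,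
      show ∑ e ∈ (Icc 1 N).filter Nat.Prime, Λ e / e = ∑ p ∈ primesUpTo N, Real.log p / p from
        sum_congr rfl fun p hp => by rw [vonMangoldt_apply_prime (mem_filter.1 hp).2]] at h1
    linarith
  refine ⟨6 + C, fun N hN => ⟨hA N hN, le_trans ?_ (hA (N ^ 2) (Nat.one_le_pow _ _ hN))⟩⟩
  refine le_of_eq_of_le ?_ (sum_le_sum_of_subset_of_nonneg
    (s := (primesUpTo N).image (· ^ 2)) (fun e he => ?_)
    fun e _ _ => div_nonneg vonMangoldt_nonneg (Nat.cast_nonneg e))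
  · rw [sum_image fun p _ q _ h => Nat.pow_left_injective two_ne_zero h]
    refine sum_congr rfl fun p hp => ?_
    rw [vonMangoldt_apply_pow two_ne_zero, vonMangoldt_apply_prime (mem_primesUpTo.1 hp).1,
      Nat.cast_pow]
  · obtain ⟨p, hp, rfl⟩ := mem_image.1 he
    obtain ⟨hpp, hpN⟩ := mem_primesUpTo.1 hp
    exact mem_filter.2 ⟨mem_Icc.2 ⟨Nat.one_le_pow _ _ hpp.pos, Nat.pow_le_pow_left hpN 2⟩,
      Nat.Prime.not_prime_pow le_rfl⟩

/-- **The recursion up to a lower order term.** -/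
theorem exists_recursion (k : ℕ) : ∃ C : ℝ, ∀ t : ℝ, 1 ≤ t →
    |scaledMoment (k + 1) t - ∑ j ∈ range (k + 1),
      (k.choose j : ℝ) / 2 * primeConv j (scaledMoment (k - j)) t| ≤ C * Real.log t ^ k := by
  obtain ⟨C, hC⟩ := exists_tail_le
  refine ⟨2 * C, fun t ht => ?_⟩
  obtain ⟨N, hN⟩ : ∃ N, N = ⌊t⌋₊ := ⟨_, rfl⟩
  have hN1 : 1 ≤ N := hN ▸ Nat.one_le_floor_iff t |>.2 ht
  have ht0 : 0 < t := by linarith
  have hNt : (N : ℝ) ≤ t := hN ▸ Nat.floor_le ht0.le
  have hlN : Real.log N ^ k ≤ Real.log t ^ k :=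
    pow_le_pow_left₀ (Real.log_natCast_nonneg N) (Real.log_le_log (Nat.cast_pos.2 hN1) hNt) k
  have hlk : 0 ≤ Real.log N ^ k := pow_nonneg (Real.log_natCast_nonneg N) k
  obtain ⟨hC1, hC2⟩ := hC N hN1
  have hC0 : 0 ≤ C := le_trans (sum_nonneg fun p _ => div_nonneg (Real.log_natCast_nonneg p)
    (sq_nonneg _)) hC2
  -- the main term
  have hmain : ∑ j ∈ range (k + 1), (k.choose j : ℝ) / 2 * primeConv j (scaledMoment (k - j)) t =
      (∑ j ∈ range (k + 1), (k.choose j : ℝ) / 2 * ∑ p ∈ primesUpTo N,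
        Real.log p * Real.log p ^ j * ∑ m ∈ Icc 1 (N / p), divisorMean (k - j) m) / t := by
    rw [sum_div]
    refine sum_congr rfl fun j _ => ?_
    rw [mul_div_assoc, sum_div, primeConv, ← hN]
    refine congrArg _ (sum_congr rfl fun p hp => ?_)
    have hp0 : (0 : ℝ) < p := Nat.cast_pos.2 (mem_primesUpTo.1 hp).1.pos
    rw [scaledMoment, Nat.floor_div_natCast, ← hN]
    field_simp
  -- the whole sum
  have hall : ∑ n ∈ Icc 1 N, divisorMean (k + 1) n =
      ∑ p ∈ primesUpTo N, Real.log p * ∑ m ∈ Icc 1 (N / p), pairTerm k p m +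
      ∑ e ∈ (Icc 1 N).filter (fun e => ¬e.Prime),
        Λ e * ∑ m ∈ Icc 1 (N / e), pairTerm k e m := by
    rw [sum_congr rfl fun n _ => divisorMean_succ k n,
      sum_divisors_Icc N fun e m => Λ e * pairTerm k e m,
      ← sum_filter_add_sum_filter_not (Icc 1 N) Nat.Prime]
    simp only [← mul_sum]
    refine congrArg₂ (· + ·) (sum_congr rfl fun p hp => ?_) rfl
    rw [vonMangoldt_apply_prime (mem_filter.1 hp).2]
  have hbnd : ∀ e ∈ Icc 1 N, ∀ m ∈ Icc 1 (N / e), 1 ≤ e ∧ 1 ≤ m ∧ e * m ≤ N := fun e he m hm => by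
    rw [mem_Icc] at he hm
    have h := hm.2
    rw [Nat.le_div_iff_mul_le (by omega), mul_comm] at h
    exact ⟨he.1, hm.1, h⟩
  have herr1 : |∑ e ∈ (Icc 1 N).filter (fun e => ¬e.Prime),
      Λ e * ∑ m ∈ Icc 1 (N / e), pairTerm k e m| ≤ t * Real.log t ^ k * C := by
    refine (abs_sum_le_sum_abs _ _).trans (le_trans (sum_le_sum fun e he => ?_)
      ((mul_sum _ (fun e : ℕ => Λ e / (e : ℝ)) _).symm.trans_le
        (mul_le_mul_of_nonneg_left hC1 (mul_nonneg ht0.le (le_trans hlk hlN)))))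
    have he' := (mem_filter.1 he).1
    rw [abs_mul, abs_of_nonneg vonMangoldt_nonneg]
    have h1 : |∑ m ∈ Icc 1 (N / e), pairTerm k e m| ≤ t / e * Real.log t ^ k := by
      refine (abs_sum_le_sum_abs _ _).trans ((sum_le_card_nsmul _ _ (Real.log t ^ k)
        fun m hm => ?_).trans ?_)
      · obtain ⟨h1, h2, h3⟩ := hbnd e he' m hm
        obtain ⟨a, b, -⟩ := pairTerm_bounds k h1 h2 h3
        rw [abs_of_nonneg a]
        exact b.trans hlN
      · rw [nsmul_eq_mul, Nat.card_Icc, Nat.add_sub_cancel]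
        exact mul_le_mul_of_nonneg_right (Nat.cast_div_le.trans
          (div_le_div_of_nonneg_right hNt (Nat.cast_nonneg e))) (le_trans hlk hlN)
    refine (mul_le_mul_of_nonneg_left h1 vonMangoldt_nonneg).trans (le_of_eq ?_)
    ring
  have herr2 : |∑ p ∈ primesUpTo N, Real.log p * ∑ m ∈ Icc 1 (N / p), pairTerm k p m -
      ∑ p ∈ primesUpTo N, Real.log p * ∑ m ∈ Icc 1 (N / p), 1 / 2 *
        ((∑ d ∈ m.divisors, (Real.log p + Real.log d) ^ k) / (m.divisors.card : ℝ))| ≤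
      t * Real.log t ^ k * C := by
    rw [← sum_sub_distrib]
    refine (abs_sum_le_sum_abs _ _).trans (le_trans (sum_le_sum fun p hp => ?_)
      ((mul_sum _ (fun p : ℕ => Real.log p / (p : ℝ) ^ 2) _).symm.trans_le
        (mul_le_mul_of_nonneg_left hC2 (mul_nonneg ht0.le (le_trans hlk hlN)))))
    obtain ⟨hpp, hpN⟩ := mem_primesUpTo.1 hp
    rw [← mul_sub, abs_mul, abs_of_nonneg (Real.log_natCast_nonneg p), ← sum_sub_distrib]
    have h1 : |∑ m ∈ Icc 1 (N / p), (pairTerm k p m - 1 / 2 *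
        ((∑ d ∈ m.divisors, (Real.log p + Real.log d) ^ k) / (m.divisors.card : ℝ)))| ≤
        t / (p : ℝ) ^ 2 * Real.log t ^ k := by
      rw [← sum_filter_of_ne (p := (p ∣ ·)) fun m _ hne => by
        by_contra h
        exact hne (sub_eq_zero.2 (pairTerm_of_coprime k hpp h))]
      refine (abs_sum_le_sum_abs _ _).trans ((sum_le_card_nsmul _ _ (Real.log t ^ k)
        fun m hm => ?_).trans ?_)
      · obtain ⟨h1, h2, h3⟩ := hbnd p (mem_Icc.2 ⟨hpp.pos, hpN⟩) m (mem_filter.1 hm).1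
        obtain ⟨a, b, c, d⟩ := pairTerm_bounds k h1 h2 h3
        rw [abs_le]
        constructor <;> linarith
      · rw [nsmul_eq_mul, show Icc 1 (N / p) = Ioc 0 (N / p) from rfl,
          Nat.Ioc_filter_dvd_card_eq_div, Nat.div_div_eq_div_mul]
        refine mul_le_mul_of_nonneg_right (Nat.cast_div_le.trans ?_) (le_trans hlk hlN)
        rw [Nat.cast_mul, ← sq]
        exact div_le_div_of_nonneg_right hNt (sq_nonneg _)
    refine (mul_le_mul_of_nonneg_left h1 (Real.log_natCast_nonneg p)).trans (le_of_eq ?_)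
    ring
  rw [sum_half_eq] at herr2
  rw [scaledMoment, ← hN, hall, hmain, ← sub_div, abs_div, abs_of_pos ht0, div_le_iff₀ ht0]
  have e : ∀ A B M : ℝ, A + B - M = (A - M) + B := fun A B M => by ring
  rw [e]
  refine (abs_add_le _ _).trans ((add_le_add herr2 herr1).trans (le_of_eq ?_))
  ring

theorem scaledMoment_zero (t : ℝ) : scaledMoment 0 t = (⌊t⌋₊ : ℝ) / t := by
  rw [scaledMoment]
  congr 1
  rw [sum_congr rfl (g := fun _ => (1 : ℝ)) fun n hn => ?_]
  · simp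
  · have hn0 : n ≠ 0 := Nat.one_le_iff_ne_zero.1 (mem_Icc.1 hn).1
    rw [divisorMean]
    simp only [pow_zero, sum_const, nsmul_eq_mul, mul_one]
    exact div_self (Nat.cast_ne_zero.2 (card_ne_zero.2 ⟨n, Nat.mem_divisors_self n hn0⟩))

theorem exists_primeConv_zero_sub (j : ℕ) : ∃ C : ℝ, ∀ t : ℝ, 1 ≤ t →
    |primeConv j (scaledMoment 0) t - primeMoment j 0 t| ≤ C * Real.log t ^ j := by
  refine ⟨Real.log 4, fun t ht => ?_⟩
  have ht0 : 0 < t := by linarith
  rw [primeConv, primeMoment, ← sum_sub_distrib]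
  refine (abs_sum_le_sum_abs _ _).trans ((sum_le_sum (g := fun p : ℕ =>
    Real.log t ^ j / t * Real.log p) fun p hp => ?_).trans ?_)
  · obtain ⟨hl0, hlt⟩ := log_le_of_mem ht hp
    obtain ⟨hpp, hpt⟩ := mem_primesUpTo.1 hp
    have hp0 : (0 : ℝ) < p := Nat.cast_pos.2 hpp.pos
    rw [pow_zero, mul_one, scaledMoment_zero]
    obtain ⟨s, hs⟩ : ∃ s, s = t / (p : ℝ) := ⟨_, rfl⟩
    rw [← hs]
    have hs0 : 0 < s := hs ▸ by positivity
    have h1 : |(⌊s⌋₊ : ℝ) / s - 1| ≤ 1 / s := by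
      rw [div_sub_one hs0.ne', abs_div, abs_of_pos hs0]
      refine div_le_div_of_nonneg_right ?_ hs0.le
      rw [abs_le]
      constructor <;> linarith [Nat.floor_le hs0.le, Nat.lt_floor_add_one s]
    have hw : 0 ≤ Real.log p / p * Real.log p ^ j := by positivity
    rw [show Real.log p / p * Real.log p ^ j * ((⌊s⌋₊ : ℝ) / s) - Real.log p / p * Real.log p ^ j =
      Real.log p / p * Real.log p ^ j * ((⌊s⌋₊ : ℝ) / s - 1) by ring, abs_mul, abs_of_nonneg hw]
    refine (mul_le_mul_of_nonneg_left h1 hw).trans ?_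
    have e : Real.log p / p * Real.log p ^ j * (1 / s) = Real.log p ^ j / t * Real.log p := by
      rw [hs]
      field_simp
    rw [e]
    exact mul_le_mul_of_nonneg_right
      (div_le_div_of_nonneg_right (pow_le_pow_left₀ hl0 hlt j) ht0.le) hl0
  · rw [← mul_sum]
    have hth : ∑ p ∈ primesUpTo ⌊t⌋₊, Real.log p ≤ Real.log 4 * t :=
      le_of_eq_of_le (Chebyshev.theta_eq_sum_Icc t).symm (Chebyshev.theta_le_log4_mul_x ht0.le)
    refine (mul_le_mul_of_nonneg_left hth (by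
      have := Real.log_nonneg ht
      positivity)).trans (le_of_eq ?_)
    field_simp

/-- **The moments.** -/
theorem approx_scaledMoment : ∀ k : ℕ, 1 ≤ k → Approx (scaledMoment k) k (arcsineMoment k) := by
  intro k
  induction k using Nat.strong_induction_on with
  | _ n ih =>
    intro hn
    obtain ⟨k, rfl⟩ : ∃ k, n = k + 1 := ⟨n - 1, by omega⟩
    have hconv : ∀ j ∈ range (k + 1), Approx (primeConv j (scaledMoment (k - j))) (k + 1)
        (arcsineMoment (k - j) * betaValue j (k - j)) := fun j hj => by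
      have hjk := Nat.lt_succ_iff.1 (mem_range.1 hj)
      rcases Nat.eq_zero_or_pos (k - j) with h0 | h0
      · rw [h0]
        obtain rfl : j = k := by omega
        obtain ⟨C, hC⟩ := exists_primeConv_zero_sub j
        have hC' : Approx (fun t => primeConv j (scaledMoment 0) t - primeMoment j 0 t) (j + 1) 0 :=
          approx_zero_of_abs_le (show j < j + 1 by omega) le_rfl fun t ht => by
            rw [add_zero]; exact hC t ht
        have h := (hC'.add (approx_primeMoment 0 j |> fun h => by rwa [zero_add] at h)).congr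
          (g := primeConv j (scaledMoment 0)) fun t _ => (sub_add_cancel _ _).symm
        simpa [arcsineMoment] using h
      · have h := (ih (k - j) (by omega) h0).conv h0 j
        rwa [show k - j + j + 1 = k + 1 by omega] at h
    obtain ⟨C, hC⟩ := exists_recursion k
    have herr : Approx (fun t => scaledMoment (k + 1) t - ∑ j ∈ range (k + 1),
        (k.choose j : ℝ) / 2 * primeConv j (scaledMoment (k - j)) t) (k + 1) 0 :=
      approx_zero_of_abs_le (show k < k + 1 by omega) le_rfl fun t ht => by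
        rw [add_zero]; exact hC t ht
    have h := (herr.add (Approx.sum (range (k + 1)) fun j hj =>
      (hconv j hj).const_mul ((k.choose j : ℝ) / 2))).congr
        (g := scaledMoment (k + 1)) fun t _ => (sub_add_cancel _ _).symm
    have e : ∀ j ∈ range (k + 1), (k.choose j : ℝ) / 2 *
        (arcsineMoment (k - j) * betaValue j (k - j)) =
          arcsineMoment (k - j) / (2 * ((k : ℝ) + 1)) := fun j hj => by
      have hjk := Nat.lt_succ_iff.1 (mem_range.1 hj)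
      rw [betaValue, show k - j + j + 1 = k + 1 by omega, Nat.factorial_succ,
        ← Nat.choose_mul_factorial_mul_factorial hjk]
      have h1 : (j.factorial : ℝ) ≠ 0 := Nat.cast_ne_zero.2 (Nat.factorial_ne_zero _)
      have h2 : ((k - j).factorial : ℝ) ≠ 0 := Nat.cast_ne_zero.2 (Nat.factorial_ne_zero _)
      have h3 : (k.choose j : ℝ) ≠ 0 := Nat.cast_ne_zero.2 (Nat.choose_pos hjk).ne'
      push_cast
      field_simp
    have hr : ∑ j ∈ range (k + 1), arcsineMoment (k - j) = ∑ i ∈ range (k + 1), arcsineMoment i :=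
      sum_range_reflect arcsineMoment (k + 1)
    rw [zero_add, sum_congr rfl e, ← sum_div, hr, sum_arcsineMoment] at h
    convert h using 1
    rw [arcsineMoment_succ]
    field_simp

end FA.DivisorArcsine

end
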